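import Fermat.Agent.S26.SpecDeg

/-!
# Row S26, leaf SOFT:GEN — `[-1]` and `[n]` preserve the generic point (helper478)

* `inv_natural` : the inverse of a `RelativeGroupLaw` is natural in the test scheme.
* `negHom_comp_negHom` : `[-1] ≫ [-1] = 𝟙`, hence `[-1]` is an isomorphism.
* `map_genericPoint_of_denseRange`, `map_genericPoint_of_isOpenMap` : a dominant (e.g. open)
  morphism of irreducible schemes sends the generic point to the generic point.
* `generic_of_etale`, `generic_of_soft` : `Stmt.Generic K` from etaleness of `[n]`
  (in particular from `Stmt.Soft K`).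
-/

set_option autoImplicit false
universe u

open CategoryTheory CategoryTheory.Limits AlgebraicGeometry NeronModelInfra GoodReductionJacobian

namespace Fermat.Agent.S26.H478

section GroupLaw

variable {R : Type u} [CommRing R] {A : Scheme.{u}} {f : A ⟶ Spec (CommRingCat.of R)}

/-- The inverse of a relative group law is natural in the test scheme. -/
theorem inv_natural (G : RelativeGroupLaw R f) {T T' : Scheme.{u}}
    (t : T ⟶ Spec (CommRingCat.of R)) (t' : T' ⟶ Spec (CommRingCat.of R))
    (ψ : T' ⟶ T) (hψ : ψ ≫ t = t') (x : SchemeHomOver t f) :
    schemeHomOverComp ψ hψ (G.inv t x) = G.inv t' (schemeHomOverComp ψ hψ x) := by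
  have h : G.mul t' (schemeHomOverComp ψ hψ (G.inv t x)) (schemeHomOverComp ψ hψ x) =
      G.one t' := by
    rw [← G.mul_natural t t' ψ hψ, G.inv_mul_cancel, G.one_natural t t' ψ hψ]
  let _ := G.pointGroup t'
  exact eq_inv_of_mul_eq_one_left h

/-- The inverse of a relative group law is an involution. -/
theorem inv_inv_point (G : RelativeGroupLaw R f) {T : Scheme.{u}}
    (t : T ⟶ Spec (CommRingCat.of R)) (x : SchemeHomOver t f) :
    G.inv t (G.inv t x) = x := by
  let _ := G.pointGroup t
  exact inv_inv x

/-- Pulling back the tautological point along (the morphism underlying) a point gives back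
that point. -/
theorem schemeHomOverComp_idPoint (x : SchemeHomOver f f) :
    schemeHomOverComp x.1 x.2 (RelativeGroupLaw.idPoint (f := f)) = x :=
  Subtype.ext (by simp)

/-- The scheme morphism `[-1]` of a relative group law squares to the identity. -/
theorem schemeInv_comp_schemeInv (G : RelativeGroupLaw R f) :
    (G.inv f RelativeGroupLaw.idPoint).1 ≫ (G.inv f RelativeGroupLaw.idPoint).1 = 𝟙 A := by
  have h := inv_natural G f f (G.inv f RelativeGroupLaw.idPoint).1
    (G.inv f RelativeGroupLaw.idPoint).2 RelativeGroupLaw.idPoint
  rw [schemeHomOverComp_idPoint, inv_inv_point] at h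
  exact congrArg Subtype.val h

end GroupLaw

section Topology

variable {X Y : Scheme.{u}} [IrreducibleSpace X] [IrreducibleSpace Y]

/-- A dominant morphism of irreducible schemes maps the generic point to the generic point. -/
theorem map_genericPoint_of_denseRange (φ : X ⟶ Y) (hφ : DenseRange φ) :
    φ (genericPoint X) = genericPoint Y := by
  apply ((genericPoint_spec Y).eq _).symm
  have h := (genericPoint_spec X).image φ.continuous
  rw [isGenericPoint_def] at h ⊢
  rw [h, Set.image_univ]
  exact hφ.closure_range

/-- An open morphism of irreducible schemes maps the generic point to the generic point. -/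
theorem map_genericPoint_of_isOpenMap (φ : X ⟶ Y) (hφ : IsOpenMap φ) :
    φ (genericPoint X) = genericPoint Y :=
  map_genericPoint_of_denseRange φ
    (hφ.isOpen_range.dense ⟨φ (genericPoint X), Set.mem_range_self _⟩)

/-- A surjective morphism of irreducible schemes maps the generic point to the generic
point. -/
theorem map_genericPoint_of_surjective (φ : X ⟶ Y) (hφ : Function.Surjective φ) :
    φ (genericPoint X) = genericPoint Y :=
  map_genericPoint_of_denseRange φ hφ.denseRange

/-- A flat morphism locally of finite presentation between irreducible schemes maps the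
generic point to the generic point. -/
theorem map_genericPoint_of_flat (φ : X ⟶ Y) [Flat φ] [LocallyOfFinitePresentation φ] :
    φ (genericPoint X) = genericPoint Y :=
  map_genericPoint_of_isOpenMap φ φ.isOpenMap

/-- An etale morphism between irreducible schemes maps the generic point to the generic
point. -/
theorem map_genericPoint_of_etale (φ : X ⟶ Y) [Etale φ] :
    φ (genericPoint X) = genericPoint Y :=
  map_genericPoint_of_flat φ

end Topology

section AbVar

variable {K : Type u} [Field K] (X : AbVar K)

/-- `[-1]` is a morphism over `Spec K`. -/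
theorem negHom_over : X.negHom ≫ X.str = X.str :=
  (X.law.inv X.str RelativeGroupLaw.idPoint).2

/-- `[n]` is a morphism over `Spec K`. -/
theorem nsmulHom_over (n : ℕ) : X.nsmulHom n ≫ X.str = X.str :=
  X.law.schemeNsmul_over n

/-- `[-1] ≫ [-1] = 𝟙`. -/
theorem negHom_comp_negHom : X.negHom ≫ X.negHom = 𝟙 X.A :=
  schemeInv_comp_schemeInv X.law

/-- `[-1]` is an isomorphism. -/
instance isIso_negHom : IsIso X.negHom :=
  ⟨⟨X.negHom, negHom_comp_negHom X, negHom_comp_negHom X⟩⟩

/-- `[-1]` as an automorphism of the scheme `A`. -/
noncomputable def negIso : X.A ≅ X.A where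
  hom := X.negHom
  inv := X.negHom
  hom_inv_id := negHom_comp_negHom X
  inv_hom_id := negHom_comp_negHom X

/-- `[-1]` is an involution on points of the underlying space. -/
theorem negHom_negHom_apply (a : X.A) : X.negHom (X.negHom a) = a := by
  have h := congrArg (fun φ : X.A ⟶ X.A => φ a) (negHom_comp_negHom X)
  simpa using h

/-- `[-1]` preserves the generic point. -/
theorem negHom_genericPoint [IsIntegral X.A] :
    X.negHom (genericPoint X.A) = genericPoint X.A :=
  genericPoint_eq_of_isOpenImmersion X.negHom

/-- `[n]` preserves the generic point as soon as it is etale. -/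
theorem nsmulHom_genericPoint_of_etale [IsIntegral X.A] (n : ℕ) [Etale (X.nsmulHom n)] :
    X.nsmulHom n (genericPoint X.A) = genericPoint X.A :=
  map_genericPoint_of_etale (X.nsmulHom n)

/-- `[n]` preserves the generic point as soon as it is surjective. -/
theorem nsmulHom_genericPoint_of_surjective [IsIntegral X.A] (n : ℕ)
    (h : Function.Surjective (X.nsmulHom n)) :
    X.nsmulHom n (genericPoint X.A) = genericPoint X.A :=
  map_genericPoint_of_surjective (X.nsmulHom n) h

end AbVar

section Main

variable (K : Type u) [Field K]

/-- SOFT:GEN from etaleness of `[n]` for `n` invertible in `K`. -/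
theorem generic_of_etale
    (h : ∀ (X : AbVar K) (n : ℕ), (n : K) ≠ 0 → Etale (X.nsmulHom n)) :
    Stmt.Generic K := by
  intro X _
  refine ⟨negHom_genericPoint X, fun n hn => ?_⟩
  have := h X n hn
  exact nsmulHom_genericPoint_of_etale X n

/-- SOFT:GEN from `Stmt.Soft`. -/
theorem generic_of_soft (h : Stmt.Soft K) : Stmt.Generic K :=
  generic_of_etale K fun X n hn => (h X n hn).2.1

end Main

end Fermat.Agent.S26.H478
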